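import Fermat.Agent.S55.Coh.FnBasic
import Fermat.Agent.S55.E.Lvl
import Fermat.Prelude.Def_GroupCohomology_ContinuousUnramified

/-!
# S55 : the concrete groups, level structures and coefficient modules

`GQ = Gal(ℚ̄/ℚ)`, `lvlQ` (all finite levels), `lvlS S` (levels unramified outside `S`),
`Dq q` (decomposition group of the Prelude place `primeLocalPlace q`), `Iq q` (its inertia group),
`rhoGm` (action on `Additive ℚ̄ˣ`), `rhoChi χ` (`ZMod p` twisted by a character), `dualRho χ ρ`.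
-/

set_option autoImplicit false

noncomputable section

namespace Fermat.Agent.S55

open ExtCitation

abbrev Qb : Type := AlgebraicClosure ℚ
abbrev GQ : Type := Qb ≃ₐ[ℚ] Qb

/-- all finite levels -/
def lvlQ : Lvl GQ where
  sets := {U | ∃ F : IntermediateField ℚ Qb, FiniteDimensional ℚ F ∧ U = F.fixingSubgroup}
  nonempty := ⟨_, ⊥, inferInstance, rfl⟩
  inter := by
    rintro _ ⟨F, hF, rfl⟩ _ ⟨F', hF', rfl⟩
    exact ⟨_, ⟨F ⊔ F', IntermediateField.finiteDimensional_sup F F', rfl⟩,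
      by rw [IntermediateField.fixingSubgroup_sup]⟩
  normal := by
    rintro _ ⟨F, hF, rfl⟩
    exact ⟨_, ⟨IntermediateField.normalClosure ℚ F Qb, normalClosure.is_finiteDimensional ℚ F Qb,
      rfl⟩, E.fixingSubgroup_normalClosure_le F, E.normal_fixingSubgroup_normalClosure F⟩
  fin := by
    rintro _ ⟨F, hF, rfl⟩
    exact E.finiteIndex_fixingSubgroup F hF

/-- levels unramified outside `S` -/
def lvlS (S : Finset Nat.Primes) : Lvl GQ where
  sets := {U | ∃ F : IntermediateField ℚ Qb, F.IsUnramifiedOutside S ∧ U = F.fixingSubgroup}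
  nonempty := ⟨_, ⊥, IntermediateField.isUnramifiedOutside_bot S, rfl⟩
  inter := by
    rintro _ ⟨F, hF, rfl⟩ _ ⟨F', hF', rfl⟩
    exact ⟨_, ⟨F ⊔ F', hF.sup hF', rfl⟩, by rw [IntermediateField.fixingSubgroup_sup]⟩
  normal := by
    rintro _ ⟨F, hF, rfl⟩
    exact ⟨_, ⟨IntermediateField.normalClosure ℚ F Qb, E.isUnramifiedOutside_normalClosure hF,
      rfl⟩, E.fixingSubgroup_normalClosure_le F, E.normal_fixingSubgroup_normalClosure F⟩
  fin := by
    rintro _ ⟨F, hF, rfl⟩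
    exact E.finiteIndex_fixingSubgroup F hF.1

theorem lvlS_sets_subset (S : Finset Nat.Primes) : (lvlS S).sets ⊆ lvlQ.sets := by
  rintro _ ⟨F, hF, rfl⟩
  exact ⟨F, hF.1, rfl⟩

/-- the identity is continuous from all levels to `S`-levels -/
theorem lvlMap_infl (S : Finset Nat.Primes) : LvlMap (lvlS S) lvlQ (MonoidHom.id GQ) :=
  fun U hU => ⟨U, lvlS_sets_subset S hU, fun _ h => h⟩

/-- decomposition group at `q` -/
def Dq (q : Nat.Primes) : Subgroup GQ := (primeLocalPlace q).decompositionSubgroup ℚ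

/-- inertia group at `q` -/
def Iq (q : Nat.Primes) : Subgroup GQ := (primeLocalPlace q).inertiaSubgroupIn ℚ

/-- levels of the decomposition group -/
def lvlD (q : Nat.Primes) : Lvl ↥(Dq q) := lvlQ.comap (Dq q).subtype

section Coeff

variable {G : Type*} [Group G]

/-- the trivial action -/
def rhoTriv (G : Type*) [Group G] (A : Type*) [AddCommGroup A] : G →* AddMonoid.End A := 1

/-- `ZMod p` twisted by a character -/
def rhoChi {p : ℕ} (χ : G →* (ZMod p)ˣ) : G →* AddMonoid.End (ZMod p) where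
  toFun g := AddMonoidHom.mulLeft ((χ g : (ZMod p)ˣ) : ZMod p)
  map_one' := by
    ext a
    change ((χ 1 : (ZMod p)ˣ) : ZMod p) * a = a
    simp
  map_mul' g h := by
    ext a
    change ((χ (g * h) : (ZMod p)ˣ) : ZMod p) * a =
      ((χ g : (ZMod p)ˣ) : ZMod p) * (((χ h : (ZMod p)ˣ) : ZMod p) * a)
    simp [mul_assoc]

@[simp] theorem rhoChi_apply {p : ℕ} (χ : G →* (ZMod p)ˣ) (g : G) (a : ZMod p) :
    rhoChi χ g a = (χ g : ZMod p) * a := rfl

variable {A : Type*} [AddCommGroup A]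

/-- the twisted dual `Hom(A, ZMod p (χ))` : `(g φ)(a) = χ(g) φ(g⁻¹ a)` -/
def dualRho {p : ℕ} (χ : G →* (ZMod p)ˣ) (ρ : G →* AddMonoid.End A) :
    G →* AddMonoid.End (A →+ ZMod p) where
  toFun g :=
    { toFun := fun φ => (AddMonoidHom.mulLeft ((χ g : (ZMod p)ˣ) : ZMod p)).comp (φ.comp (ρ g⁻¹))
      map_zero' := by
        ext a
        change ((χ g : (ZMod p)ˣ) : ZMod p) * (0 : A →+ ZMod p) (ρ g⁻¹ a) = 0
        simp
      map_add' := fun φ ψ => by
        ext a
        change ((χ g : (ZMod p)ˣ) : ZMod p) * (φ + ψ) (ρ g⁻¹ a) =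
          ((χ g : (ZMod p)ˣ) : ZMod p) * φ (ρ g⁻¹ a) + ((χ g : (ZMod p)ˣ) : ZMod p) * ψ (ρ g⁻¹ a)
        simp [mul_add] }
  map_one' := by
    ext φ a
    change ((χ 1 : (ZMod p)ˣ) : ZMod p) * φ (ρ 1⁻¹ a) = φ a
    simp
  map_mul' g h := by
    ext φ a
    change ((χ (g * h) : (ZMod p)ˣ) : ZMod p) * φ (ρ (g * h)⁻¹ a) =
      ((χ g : (ZMod p)ˣ) : ZMod p) * (((χ h : (ZMod p)ˣ) : ZMod p) * φ (ρ h⁻¹ (ρ g⁻¹ a)))
    simp [mul_inv_rev, mul_assoc]

@[simp] theorem dualRho_apply {p : ℕ} (χ : G →* (ZMod p)ˣ) (ρ : G →* AddMonoid.End A) (g : G)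
    (φ : A →+ ZMod p) (a : A) : dualRho χ ρ g φ a = (χ g : ZMod p) * φ (ρ g⁻¹ a) := rfl

end Coeff

/-- the Galois action on `Additive ℚ̄ˣ` -/
def rhoGm : GQ →* AddMonoid.End (Additive Qbˣ) where
  toFun g := MonoidHom.toAdditive (Units.map (g : Qb →* Qb))
  map_one' := by ext x; rfl
  map_mul' g h := by ext x; rfl

/-- `μ_p` as `ZMod p` with the cyclotomic action -/
def rhoT (p : ℕ) [Fact p.Prime] : GQ →* AddMonoid.End (ZMod p) := rhoChi (cycloChar p)

section Sha

variable {A : Type*} [AddCommGroup A] (S : Finset Nat.Primes) (ρ : GQ →* AddMonoid.End A)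

/-- inflation from `S`-levels to all levels -/
def infl1 : H1 (lvlS S) ρ →+ H1 lvlQ ρ :=
  H1map (φ := AddMonoidHom.id A) (lvlMap_infl S) (fun _ _ => rfl)
def infl2 : H2 (lvlS S) ρ →+ H2 lvlQ ρ :=
  H2map (φ := AddMonoidHom.id A) (lvlMap_infl S) (fun _ _ => rfl)

/-- localisation at `q` -/
def loc1 (q : Nat.Primes) : H1 lvlQ ρ →+ H1 (lvlD q) (ρ.comp (Dq q).subtype) :=
  res1 lvlQ ρ (Dq q).subtype
def loc2 (q : Nat.Primes) : H2 lvlQ ρ →+ H2 (lvlD q) (ρ.comp (Dq q).subtype) :=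
  res2 lvlQ ρ (Dq q).subtype

/-- `Ш¹_S` -/
def Sha1S : AddSubgroup (H1 (lvlS S) ρ) where
  carrier := {x | ∀ q ∈ S, loc1 ρ q (infl1 S ρ x) = 0}
  add_mem' := fun ha hb q hq => by rw [map_add, map_add, ha q hq, hb q hq, add_zero]
  zero_mem' := fun q _ => by rw [map_zero, map_zero]
  neg_mem' := fun ha q hq => by rw [map_neg, map_neg, ha q hq, neg_zero]

/-- `Ш²_S` -/
def Sha2S : AddSubgroup (H2 (lvlS S) ρ) where
  carrier := {x | ∀ q ∈ S, loc2 ρ q (infl2 S ρ x) = 0}
  add_mem' := fun ha hb q hq => by rw [map_add, map_add, ha q hq, hb q hq, add_zero]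
  zero_mem' := fun q _ => by rw [map_zero, map_zero]
  neg_mem' := fun ha q hq => by rw [map_neg, map_neg, ha q hq, neg_zero]

/-- `Ш¹` with respect to all primes -/
def Sha1All : AddSubgroup (H1 lvlQ ρ) where
  carrier := {x | ∀ q, loc1 ρ q x = 0}
  add_mem' := fun ha hb q => by rw [map_add, ha q, hb q, add_zero]
  zero_mem' := fun q => by rw [map_zero]
  neg_mem' := fun ha q => by rw [map_neg, ha q, neg_zero]

/-- `Ш²` with respect to all primes -/
def Sha2All : AddSubgroup (H2 lvlQ ρ) where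
  carrier := {x | ∀ q, loc2 ρ q x = 0}
  add_mem' := fun ha hb q => by rw [map_add, ha q, hb q, add_zero]
  zero_mem' := fun q => by rw [map_zero]
  neg_mem' := fun ha q => by rw [map_neg, ha q, neg_zero]

end Sha

end Fermat.Agent.S55
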