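import Fermat.Agent.S55.Coh.Defs

/-!
# S55 / A1 : the long exact cohomology sequence `H⁰ … H²`

For a short exact sequence `0 → A → B → C → 0` of `G`-modules (`SES`), with `B` smooth:
connecting homomorphisms `delta0 : H⁰ C → H¹ A`, `delta1 : H¹ C → H² A`, their characterisations
(`delta0_eq`, `delta1_eq` : ANY lift computes them), the six exactness statements and naturality
along an arbitrary `r : H →* G`.
-/

set_option autoImplicit false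

namespace Fermat.Agent.S55

section Aux

theorem End_mul_apply {A : Type*} [AddCommGroup A] (f g : AddMonoid.End A) (a : A) :
    (f * g) a = f (g a) := rfl

variable {G : Type*} [Group G] {𝓛 : Lvl G}

theorem LC1.finite_range {X : Type*} {f : G → X} (hf : LC1 𝓛 f) : (Set.range f).Finite := by
  obtain ⟨U, hU, h⟩ := hf
  have := 𝓛.fin U hU
  have hfin : Finite (G ⧸ U) := Subgroup.finite_quotient_of_finiteIndex
  refine (Set.finite_range (fun q : G ⧸ U => f q.out)).subset ?_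
  rintro _ ⟨g, rfl⟩
  obtain ⟨u, hu⟩ := QuotientGroup.mk_out_eq_mul U g
  exact ⟨(g : G ⧸ U), by simp only [hu, h g u u.2]⟩

theorem LC1.exists_normal {X : Type*} {f : G → X} (hf : LC1 𝓛 f) :
    ∃ U ∈ 𝓛.sets, U.Normal ∧ ∀ g, ∀ u ∈ U, f (g * u) = f g := by
  obtain ⟨U, hU, h⟩ := hf
  obtain ⟨W, hW, hWU, hn⟩ := 𝓛.normal U hU
  exact ⟨W, hW, hn, fun g u hu => h g u (hWU hu)⟩

theorem LC2.exists_normal {X : Type*} {f : G → G → X} (hf : LC2 𝓛 f) :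
    ∃ U ∈ 𝓛.sets, U.Normal ∧ ∀ g h, ∀ u ∈ U, ∀ u' ∈ U, f (g * u) (h * u') = f g h := by
  obtain ⟨U, hU, h⟩ := hf
  obtain ⟨W, hW, hWU, hn⟩ := 𝓛.normal U hU
  exact ⟨W, hW, hn, fun g k u hu u' hu' => h g k u (hWU hu) u' (hWU hu')⟩

variable {A : Type*} [AddCommGroup A] {ρ : G →* AddMonoid.End A}

theorem Smooth.exists_of_finite (hρ : Smooth 𝓛 ρ) {s : Set A} (hs : s.Finite) :
    ∃ U ∈ 𝓛.sets, ∀ u ∈ U, ∀ a ∈ s, ρ u a = a := by
  induction s, hs using Set.Finite.induction_on with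
  | empty =>
    obtain ⟨U, hU⟩ := 𝓛.nonempty
    exact ⟨U, hU, fun _ _ _ h => absurd h (Set.notMem_empty _)⟩
  | @insert a s _ _ ih =>
    obtain ⟨U, hU, h⟩ := ih
    obtain ⟨V, hV, h'⟩ := hρ a
    obtain ⟨W, hW, hWU⟩ := 𝓛.inter U hU V hV
    refine ⟨W, hW, fun u hu b hb => ?_⟩
    rcases Set.mem_insert_iff.1 hb with rfl | hb
    · exact h' u (hWU hu).2
    · exact h u (hWU hu).1 b hb

theorem LC1_d0 (hρ : Smooth 𝓛 ρ) (a : A) : LC1 𝓛 (d0 ρ a) := by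
  obtain ⟨U, hU, h⟩ := hρ a
  refine ⟨U, hU, fun g u hu => ?_⟩
  simp only [d0_apply, map_mul, End_mul_apply, h u hu]

theorem LC2_d1 (hρ : Smooth 𝓛 ρ) {x : G → A} (hx : LC1 𝓛 x) : LC2 𝓛 (d1 ρ x) := by
  obtain ⟨U, hU, hn, h⟩ := hx.exists_normal
  obtain ⟨V, hV, h'⟩ := hρ.exists_of_finite hx.finite_range
  obtain ⟨W, hW, hWU⟩ := 𝓛.inter U hU V hV
  refine ⟨W, hW, fun g k u hu u' hu' => ?_⟩
  have e1 : x (k * u') = x k := h k u' (hWU hu').1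
  have e2 : x (g * u) = x g := h g u (hWU hu).1
  have e3 : x (g * u * (k * u')) = x (g * k) := by
    have : g * u * (k * u') = g * k * ((k⁻¹ * u * k) * u') := by group
    rw [this]
    refine h _ _ (U.mul_mem ?_ (hWU hu').1)
    have := hn.conj_mem u (hWU hu).1 k⁻¹
    simpa using this
  have e4 : ρ (g * u) (x k) = ρ g (x k) := by
    rw [map_mul, End_mul_apply, h' u (hWU hu).2 _ ⟨k, rfl⟩]
  simp only [d1_apply, e1, e2, e3, e4]

theorem d1_d0 (a : A) : d1 ρ (d0 ρ a) = 0 := by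
  ext g h
  simp only [d1_apply, d0_apply, map_sub, map_mul, End_mul_apply, Pi.zero_apply]
  abel

theorem d1_cocycle (x : G → A) (g h j : G) :
    d1 ρ x (g * h) j + d1 ρ x g h = ρ g (d1 ρ x h j) + d1 ρ x g (h * j) := by
  simp only [d1_apply, map_sub, map_add, map_mul, End_mul_apply, mul_assoc]
  abel

theorem d1_mem_Z2 (hρ : Smooth 𝓛 ρ) {x : G → A} (hx : LC1 𝓛 x) : d1 ρ x ∈ Z2 𝓛 ρ :=
  ⟨LC2_d1 hρ hx, d1_cocycle x⟩

theorem d0_mem_Z1 (hρ : Smooth 𝓛 ρ) (a : A) : d0 ρ a ∈ Z1 𝓛 ρ :=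
  ⟨LC1_d0 hρ a, fun g h => by
    simp only [d0_apply, map_sub, map_mul, End_mul_apply]; abel⟩

theorem mem_Z1_iff_d1 {x : G → A} : x ∈ Z1 𝓛 ρ ↔ LC1 𝓛 x ∧ d1 ρ x = 0 := by
  rw [mem_Z1]
  refine and_congr_right fun _ => ⟨fun h => ?_, fun h g k => ?_⟩
  · ext g k
    simp only [d1_apply, h g k, Pi.zero_apply]; abel
  · have := congrFun (congrFun h g) k
    simp only [d1_apply, Pi.zero_apply] at this
    have h2 : x (g * k) = ρ g (x k) + x g - (ρ g (x k) - x (g * k) + x g) := by abel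
    rw [h2, this, sub_zero]

end Aux

/-! ### short exact sequences -/

section SESsec

variable {G : Type*} [Group G]
variable {A B C : Type*} [AddCommGroup A] [AddCommGroup B] [AddCommGroup C]

/-- a short exact sequence of `G`-modules -/
structure SES (ρA : G →* AddMonoid.End A) (ρB : G →* AddMonoid.End B) (ρC : G →* AddMonoid.End C)
    (i : A →+ B) (j : B →+ C) : Prop where
  hi : IsHom ρA ρB i
  hj : IsHom ρB ρC j
  inj : Function.Injective i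
  surj : Function.Surjective j
  exact : ∀ b, j b = 0 ↔ ∃ a, i a = b

variable {ρA : G →* AddMonoid.End A} {ρB : G →* AddMonoid.End B} {ρC : G →* AddMonoid.End C}
  {i : A →+ B} {j : B →+ C}

theorem SES.comp_eq_zero (S : SES ρA ρB ρC i j) (a : A) : j (i a) = 0 := (S.exact _).2 ⟨a, rfl⟩

theorem SES.i_invFun (S : SES ρA ρB ρC i j) {b : B} (hb : j b = 0) :
    i (Function.invFun i b) = b := Function.invFun_eq ((S.exact b).1 hb)

/-- a set theoretic section of `j` -/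
noncomputable def SES.sec (S : SES ρA ρB ρC i j) : C → B := Function.surjInv S.surj

@[simp] theorem SES.j_sec (S : SES ρA ρB ρC i j) (c : C) : j (S.sec c) = c :=
  Function.surjInv_eq S.surj c

theorem SES.smoothA {𝓛 : Lvl G} (S : SES ρA ρB ρC i j) (hB : Smooth 𝓛 ρB) : Smooth 𝓛 ρA := by
  intro a
  obtain ⟨U, hU, h⟩ := hB (i a)
  exact ⟨U, hU, fun u hu => S.inj (by rw [S.hi, h u hu])⟩

theorem SES.smoothC {𝓛 : Lvl G} (S : SES ρA ρB ρC i j) (hB : Smooth 𝓛 ρB) : Smooth 𝓛 ρC := by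
  intro c
  obtain ⟨b, rfl⟩ := S.surj c
  obtain ⟨U, hU, h⟩ := hB b
  exact ⟨U, hU, fun u hu => by rw [← S.hj, h u hu]⟩

variable {𝓛 : Lvl G}

/-- a level-constant 1-cochain with values in `ker j` comes from a level-constant cochain of `A` -/
theorem SES.exists_pre1 (S : SES ρA ρB ρC i j) {x : G → B} (hx : LC1 𝓛 x) (h0 : ∀ g, j (x g) = 0) :
    ∃ y : G → A, LC1 𝓛 y ∧ ∀ g, i (y g) = x g :=
  ⟨fun g => Function.invFun i (x g), hx.comp _, fun g => S.i_invFun (h0 g)⟩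

theorem SES.exists_pre2 (S : SES ρA ρB ρC i j) {x : G → G → B} (hx : LC2 𝓛 x)
    (h0 : ∀ g h, j (x g h) = 0) :
    ∃ y : G → G → A, LC2 𝓛 y ∧ ∀ g h, i (y g h) = x g h :=
  ⟨fun g h => Function.invFun i (x g h), hx.comp _, fun g h => S.i_invFun (h0 g h)⟩

/-- level-constant cochains lift along `j` -/
theorem SES.exists_lift1 (S : SES ρA ρB ρC i j) {z : G → C} (hz : LC1 𝓛 z) :
    ∃ x : G → B, LC1 𝓛 x ∧ ∀ g, j (x g) = z g :=
  ⟨fun g => S.sec (z g), hz.comp _, fun g => S.j_sec _⟩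

theorem SES.i_d0 (S : SES ρA ρB ρC i j) (a : A) (g : G) : i (d0 ρA a g) = d0 ρB (i a) g := by
  simp only [d0_apply, map_sub, S.hi g a]

theorem SES.i_d1 (S : SES ρA ρB ρC i j) (y : G → A) (g h : G) :
    i (d1 ρA y g h) = d1 ρB (fun k => i (y k)) g h := by
  simp only [d1_apply, map_sub, map_add, S.hi g]

theorem SES.j_d0 (S : SES ρA ρB ρC i j) (b : B) (g : G) : j (d0 ρB b g) = d0 ρC (j b) g := by
  simp only [d0_apply, map_sub, S.hj g b]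

theorem SES.j_d1 (S : SES ρA ρB ρC i j) (y : G → B) (g h : G) :
    j (d1 ρB y g h) = d1 ρC (fun k => j (y k)) g h := by
  simp only [d1_apply, map_sub, map_add, S.hj g]

/-- a cochain of `A` whose image in `B` is a cocycle is a cocycle -/
theorem SES.mem_Z1_of (S : SES ρA ρB ρC i j) {y : G → A} (hy : LC1 𝓛 y)
    (h : ∀ g k, d1 ρB (fun k => i (y k)) g k = 0) : y ∈ Z1 𝓛 ρA := by
  rw [mem_Z1_iff_d1]
  refine ⟨hy, ?_⟩
  ext g k
  apply S.inj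
  rw [S.i_d1, h, Pi.zero_apply, Pi.zero_apply, map_zero]

theorem SES.mem_Z2_of (S : SES ρA ρB ρC i j) {w : G → G → A} (hw : LC2 𝓛 w)
    (h : ∀ g h k, i (w (g * h) k) + i (w g h) = ρB g (i (w h k)) + i (w g (h * k))) :
    w ∈ Z2 𝓛 ρA := by
  refine ⟨hw, fun g h' k => S.inj ?_⟩
  rw [map_add, map_add, S.hi]
  exact h g h' k

/-! ### `delta0` -/

theorem SES.exists_Z1_of_lift (S : SES ρA ρB ρC i j) (hB : Smooth 𝓛 ρB) (b : B)
    (hb : j b ∈ H0 ρC) : ∃ z : ↥(Z1 𝓛 ρA), ∀ g, i (z.1 g) = ρB g b - b := by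
  obtain ⟨y, hy, hy'⟩ := S.exists_pre1 (LC1_d0 hB b) (fun g => by
    rw [S.j_d0, d0_apply, hb g, sub_self])
  refine ⟨⟨y, S.mem_Z1_of hy fun g k => ?_⟩, hy'⟩
  have : (fun k => i (y k)) = d0 ρB b := funext hy'
  rw [this, d1_d0]; rfl

theorem SES.mk_eq_of_lifts (S : SES ρA ρB ρC i j) {b b' : B} (hbb : j b = j b')
    {z z' : ↥(Z1 𝓛 ρA)} (hz : ∀ g, i (z.1 g) = ρB g b - b) (hz' : ∀ g, i (z'.1 g) = ρB g b' - b') :
    H1.mk 𝓛 ρA z = H1.mk 𝓛 ρA z' := by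
  rw [← sub_eq_zero, ← map_sub, H1.mk_eq_zero_iff]
  obtain ⟨a, ha⟩ := (S.exact (b - b')).1 (by rw [map_sub, hbb, sub_self])
  refine ⟨(z - z').2.1, a, ?_⟩
  ext g
  apply S.inj
  rw [S.i_d0, ha]
  simp only [AddSubgroup.coe_sub, Pi.sub_apply, map_sub, hz, hz', d0_apply]
  abel

/-- the connecting homomorphism `H⁰(C) → H¹(A)` -/
noncomputable def delta0 (S : SES ρA ρB ρC i j) (hB : Smooth 𝓛 ρB) : ↥(H0 ρC) →+ H1 𝓛 ρA :=
  AddMonoidHom.mk'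
    (fun c => H1.mk 𝓛 ρA (S.exists_Z1_of_lift hB (S.sec c.1)
      (by rw [S.j_sec]; exact c.2)).choose)
    (fun c c' => by
      have h1 := (S.exists_Z1_of_lift (𝓛 := 𝓛) hB (S.sec c.1)
        (by rw [S.j_sec]; exact c.2)).choose_spec
      have h2 := (S.exists_Z1_of_lift (𝓛 := 𝓛) hB (S.sec c'.1)
        (by rw [S.j_sec]; exact c'.2)).choose_spec
      have h3 := (S.exists_Z1_of_lift (𝓛 := 𝓛) hB (S.sec (c + c').1)
        (by rw [S.j_sec]; exact (c + c').2)).choose_spec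
      rw [← map_add]
      refine S.mk_eq_of_lifts (b := S.sec (c + c').1)
        (b' := S.sec c.1 + S.sec c'.1) ?_ h3 (fun g => ?_)
      · simp only [map_add, S.j_sec, AddSubgroup.coe_add]
      · simp only [AddSubgroup.coe_add, Pi.add_apply, map_add, h1, h2]
        abel)

/-- ANY lift computes `delta0` -/
theorem delta0_eq (S : SES ρA ρB ρC i j) (hB : Smooth 𝓛 ρB) (c : ↥(H0 ρC)) (b : B) (hb : j b = c)
    (z : ↥(Z1 𝓛 ρA)) (hz : ∀ g, i (z.1 g) = ρB g b - b) : delta0 S hB c = H1.mk 𝓛 ρA z := by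
  have h1 := (S.exists_Z1_of_lift (𝓛 := 𝓛) hB (S.sec c.1)
        (by rw [S.j_sec]; exact c.2)).choose_spec
  exact S.mk_eq_of_lifts (by rw [S.j_sec, hb]) h1 hz

theorem exists_delta0_eq (S : SES ρA ρB ρC i j) (hB : Smooth 𝓛 ρB) (c : ↥(H0 ρC)) :
    ∃ (b : B) (z : ↥(Z1 𝓛 ρA)), j b = c ∧ (∀ g, i (z.1 g) = ρB g b - b) ∧
      delta0 S hB c = H1.mk 𝓛 ρA z := by
  obtain ⟨b, hb⟩ := S.surj c
  obtain ⟨z, hz⟩ := S.exists_Z1_of_lift (𝓛 := 𝓛) hB b (by rw [hb]; exact c.2)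
  exact ⟨b, z, hb, hz, delta0_eq S hB c b hb z hz⟩

/-- exactness at `H⁰(C)` -/
theorem delta0_eq_zero_iff (S : SES ρA ρB ρC i j) (hB : Smooth 𝓛 ρB) (c : ↥(H0 ρC)) :
    delta0 (𝓛 := 𝓛) S hB c = 0 ↔ ∃ b : ↥(H0 ρB), H0c S.hj b = c := by
  obtain ⟨b, z, hb, hz, h⟩ := exists_delta0_eq (𝓛 := 𝓛) S hB c
  rw [h, H1.mk_eq_zero_iff]
  constructor
  · rintro ⟨-, a, ha⟩
    refine ⟨⟨b - i a, fun g => ?_⟩, Subtype.ext ?_⟩
    · have h1 := hz g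
      rw [ha, S.i_d0, d0_apply] at h1
      rw [map_sub]
      have : ρB g b = ρB g (i a) - i a + b := by rw [h1]; abel
      rw [this]; abel
    · change j (b - i a) = c
      rw [map_sub, S.comp_eq_zero, sub_zero, hb]
  · rintro ⟨b', hb'⟩
    have hb'' : j b'.1 = c := congrArg Subtype.val hb'
    obtain ⟨a, ha⟩ := (S.exact (b - b'.1)).1 (by rw [map_sub, hb, hb'', sub_self])
    refine ⟨z.2.1, a, ?_⟩
    ext g
    apply S.inj
    rw [S.i_d0, ha, hz, d0_apply, map_sub, b'.2 g]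
    abel

/-- exactness at `H¹(A)` -/
theorem H1c_i_eq_zero_iff (S : SES ρA ρB ρC i j) (hB : Smooth 𝓛 ρB) (x : H1 𝓛 ρA) :
    H1c 𝓛 S.hi x = 0 ↔ ∃ c, delta0 S hB c = x := by
  constructor
  · obtain ⟨z, rfl⟩ := H1.mk_surjective 𝓛 ρA x
    intro h
    rw [H1c, H1map_mk, H1.mk_eq_zero_iff] at h
    obtain ⟨-, b, hb⟩ := h
    have hz : ∀ g, i (z.1 g) = ρB g b - b := fun g => congrFun hb g
    refine ⟨⟨j b, fun g => ?_⟩, delta0_eq S hB _ b rfl z hz⟩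
    rw [← S.hj, ← sub_eq_zero, ← map_sub, ← hz, S.comp_eq_zero]
  · rintro ⟨c, rfl⟩
    obtain ⟨b, z, hb, hz, h⟩ := exists_delta0_eq (𝓛 := 𝓛) S hB c
    rw [h, H1c, H1map_mk, H1.mk_eq_zero_iff]
    exact ⟨(Z1map (LvlMap.id 𝓛) S.hi.along z).2.1, b, funext hz⟩

/-- exactness at `H¹(B)` -/
theorem H1c_j_eq_zero_iff (S : SES ρA ρB ρC i j) (hB : Smooth 𝓛 ρB) (y : H1 𝓛 ρB) :
    H1c 𝓛 S.hj y = 0 ↔ ∃ x, H1c 𝓛 S.hi x = y := by
  constructor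
  · obtain ⟨f, rfl⟩ := H1.mk_surjective 𝓛 ρB y
    intro h
    rw [H1c, H1map_mk, H1.mk_eq_zero_iff] at h
    obtain ⟨-, c, hc⟩ := h
    obtain ⟨b, rfl⟩ := S.surj c
    have hc' : ∀ g, j (f.1 g) = d0 ρC (j b) g := fun g => congrFun hc g
    have hmem : f.1 - d0 ρB b ∈ Z1 𝓛 ρB := (Z1 𝓛 ρB).sub_mem f.2 (d0_mem_Z1 hB b)
    obtain ⟨y, hy, hy'⟩ := S.exists_pre1 hmem.1 (fun g => by
      rw [Pi.sub_apply, map_sub, hc', S.j_d0, sub_self])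
    have hyZ : y ∈ Z1 𝓛 ρA := S.mem_Z1_of hy fun g k => by
      have : (fun k => i (y k)) = f.1 - d0 ρB b := funext hy'
      rw [this, (mem_Z1_iff_d1.1 hmem).2]; rfl
    refine ⟨H1.mk 𝓛 ρA ⟨y, hyZ⟩, ?_⟩
    rw [H1c, H1map_mk, ← sub_eq_zero, ← map_sub, H1.mk_eq_zero_iff]
    refine ⟨(Z1map (LvlMap.id 𝓛) S.hi.along ⟨y, hyZ⟩ - f).2.1, -b, ?_⟩
    ext g
    simp only [AddSubgroup.coe_sub, coe_Z1map, Pi.sub_apply, pp1_apply, MonoidHom.id_apply, hy',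
      map_neg, Pi.neg_apply]
    abel
  · rintro ⟨x, rfl⟩
    obtain ⟨z, rfl⟩ := H1.mk_surjective 𝓛 ρA x
    rw [H1c, H1c, H1map_mk, H1map_mk, H1.mk_eq_zero_iff]
    refine ⟨(Z1map (LvlMap.id 𝓛) S.hj.along (Z1map (LvlMap.id 𝓛) S.hi.along z)).2.1, 0, ?_⟩
    ext g
    simp [S.comp_eq_zero]

/-! ### `delta1` -/

theorem SES.exists_Z2_of_lift (S : SES ρA ρB ρC i j) (hB : Smooth 𝓛 ρB) {x : G → B}
    (hx : LC1 𝓛 x) (hz : (fun g => j (x g)) ∈ Z1 𝓛 ρC) :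
    ∃ w : ↥(Z2 𝓛 ρA), ∀ g h, i (w.1 g h) = d1 ρB x g h := by
  obtain ⟨w, hw, hw'⟩ := S.exists_pre2 (LC2_d1 hB hx) (fun g h => by
    rw [S.j_d1, (mem_Z1_iff_d1.1 hz).2]; rfl)
  refine ⟨⟨w, S.mem_Z2_of hw fun g h k => ?_⟩, hw'⟩
  simp only [hw']
  exact d1_cocycle x g h k

theorem SES.mk_eq_of_lifts2 (S : SES ρA ρB ρC i j) {x x' : G → B} (hx : LC1 𝓛 x) (hx' : LC1 𝓛 x')
    (hxx : ∀ g, j (x g) = j (x' g)) {w w' : ↥(Z2 𝓛 ρA)}
    (hw : ∀ g h, i (w.1 g h) = d1 ρB x g h) (hw' : ∀ g h, i (w'.1 g h) = d1 ρB x' g h) :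
    H2.mk 𝓛 ρA w = H2.mk 𝓛 ρA w' := by
  rw [← sub_eq_zero, ← map_sub, H2.mk_eq_zero_iff]
  obtain ⟨y, hy, hy'⟩ := S.exists_pre1 (x := x - x') (hx.comp₂ hx' (· - ·)) (fun g => by
    rw [Pi.sub_apply, map_sub, hxx, sub_self])
  refine ⟨y, hy, ?_⟩
  ext g h
  apply S.inj
  have : (fun k => i (y k)) = x - x' := funext hy'
  rw [S.i_d1, this, map_sub]
  simp only [AddSubgroup.coe_sub, Pi.sub_apply, map_sub, hw, hw']

/-- `delta1` on cocycles -/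
noncomputable def delta1Z (S : SES ρA ρB ρC i j) (hB : Smooth 𝓛 ρB) : ↥(Z1 𝓛 ρC) →+ H2 𝓛 ρA :=
  AddMonoidHom.mk'
    (fun z => H2.mk 𝓛 ρA (S.exists_Z2_of_lift hB (x := fun g => S.sec (z.1 g))
      (z.2.1.comp _) (by simp only [S.j_sec]; exact z.2)).choose)
    (fun z z' => by
      have h1 := (S.exists_Z2_of_lift hB (x := fun g => S.sec (z.1 g))
        (z.2.1.comp _) (by simp only [S.j_sec]; exact z.2)).choose_spec
      have h2 := (S.exists_Z2_of_lift hB (x := fun g => S.sec (z'.1 g))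
        (z'.2.1.comp _) (by simp only [S.j_sec]; exact z'.2)).choose_spec
      have h3 := (S.exists_Z2_of_lift hB (x := fun g => S.sec ((z + z').1 g))
        ((z + z').2.1.comp _) (by simp only [S.j_sec]; exact (z + z').2)).choose_spec
      rw [← map_add]
      refine S.mk_eq_of_lifts2 ((z + z').2.1.comp _)
        (x' := (fun g => S.sec (z.1 g)) + fun g => S.sec (z'.1 g))
        ((z.2.1.comp S.sec).comp₂ (z'.2.1.comp S.sec) (· + ·)) (fun g => ?_) h3 (fun g h => ?_)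
      · simp only [Pi.add_apply, map_add, S.j_sec, AddSubgroup.coe_add]
      · rw [map_add]
        simp only [AddSubgroup.coe_add, Pi.add_apply, map_add, h1, h2])

theorem delta1Z_eq (S : SES ρA ρB ρC i j) (hB : Smooth 𝓛 ρB) (z : ↥(Z1 𝓛 ρC)) (x : G → B)
    (hx : LC1 𝓛 x) (hxz : ∀ g, j (x g) = z.1 g) (w : ↥(Z2 𝓛 ρA))
    (hw : ∀ g h, i (w.1 g h) = d1 ρB x g h) : delta1Z S hB z = H2.mk 𝓛 ρA w := by
  have h1 := (S.exists_Z2_of_lift hB (x := fun g => S.sec (z.1 g))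
        (z.2.1.comp _) (by simp only [S.j_sec]; exact z.2)).choose_spec
  exact S.mk_eq_of_lifts2 (z.2.1.comp _) hx (fun g => by rw [S.j_sec, hxz]) h1 hw

/-- the connecting homomorphism `H¹(C) → H²(A)` -/
noncomputable def delta1 (S : SES ρA ρB ρC i j) (hB : Smooth 𝓛 ρB) : H1 𝓛 ρC →+ H2 𝓛 ρA :=
  QuotientAddGroup.lift _ (delta1Z S hB) (fun z hz => by
    obtain ⟨h1, c, hc⟩ := AddSubgroup.mem_addSubgroupOf.1 hz
    obtain ⟨b, rfl⟩ := S.surj c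
    rw [AddMonoidHom.mem_ker, delta1Z_eq S hB z (d0 ρB b) (LC1_d0 hB b) (fun g => by rw [S.j_d0, hc]) 0
      (fun g h => by rw [d1_d0]; simp), map_zero])

/-- ANY lift computes `delta1` -/
theorem delta1_eq (S : SES ρA ρB ρC i j) (hB : Smooth 𝓛 ρB) (z : ↥(Z1 𝓛 ρC)) (x : G → B)
    (hx : LC1 𝓛 x) (hxz : ∀ g, j (x g) = z.1 g) (w : ↥(Z2 𝓛 ρA))
    (hw : ∀ g h, i (w.1 g h) = d1 ρB x g h) :
    delta1 S hB (H1.mk 𝓛 ρC z) = H2.mk 𝓛 ρA w :=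
  delta1Z_eq S hB z x hx hxz w hw

theorem exists_delta1_eq (S : SES ρA ρB ρC i j) (hB : Smooth 𝓛 ρB) (z : ↥(Z1 𝓛 ρC)) :
    ∃ (x : G → B) (w : ↥(Z2 𝓛 ρA)), LC1 𝓛 x ∧ (∀ g, j (x g) = z.1 g) ∧
      (∀ g h, i (w.1 g h) = d1 ρB x g h) ∧ delta1 S hB (H1.mk 𝓛 ρC z) = H2.mk 𝓛 ρA w := by
  obtain ⟨x, hx, hxz⟩ := S.exists_lift1 z.2.1
  obtain ⟨w, hw⟩ := S.exists_Z2_of_lift hB hx (by
    have : (fun g => j (x g)) = z.1 := funext hxz
    rw [this]; exact z.2)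
  exact ⟨x, w, hx, hxz, hw, delta1_eq S hB z x hx hxz w hw⟩

/-- exactness at `H¹(C)` -/
theorem delta1_eq_zero_iff (S : SES ρA ρB ρC i j) (hB : Smooth 𝓛 ρB) (c : H1 𝓛 ρC) :
    delta1 S hB c = 0 ↔ ∃ y, H1c 𝓛 S.hj y = c := by
  obtain ⟨z, rfl⟩ := H1.mk_surjective 𝓛 ρC c
  constructor
  · obtain ⟨x, w, hx, hxz, hw, h⟩ := exists_delta1_eq S hB z
    rw [h, H2.mk_eq_zero_iff]
    rintro ⟨y, hy, hwy⟩
    have hf : (x - fun g => i (y g)) ∈ Z1 𝓛 ρB := by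
      rw [mem_Z1_iff_d1]
      refine ⟨hx.comp₂ (hy.comp i) (· - ·), ?_⟩
      ext g h
      rw [map_sub, Pi.sub_apply, Pi.sub_apply, ← hw, ← S.i_d1, hwy, sub_self]; rfl
    refine ⟨H1.mk 𝓛 ρB ⟨_, hf⟩, ?_⟩
    rw [H1c, H1map_mk]
    congr 1
    ext g
    simp [hxz, S.comp_eq_zero]
  · rintro ⟨y, hy⟩
    obtain ⟨f, rfl⟩ := H1.mk_surjective 𝓛 ρB y
    rw [← hy, H1c, H1map_mk]
    rw [delta1_eq S hB _ f.1 f.2.1 (fun g => rfl) 0 (fun g h => by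
      rw [(mem_Z1_iff_d1.1 f.2).2]; simp), map_zero]

/-- exactness at `H²(A)` -/
theorem H2c_i_eq_zero_iff (S : SES ρA ρB ρC i j) (hB : Smooth 𝓛 ρB) (a : H2 𝓛 ρA) :
    H2c 𝓛 S.hi a = 0 ↔ ∃ c, delta1 S hB c = a := by
  constructor
  · obtain ⟨w, rfl⟩ := H2.mk_surjective 𝓛 ρA a
    intro h
    rw [H2c, H2map_mk, H2.mk_eq_zero_iff] at h
    obtain ⟨x, hx, hwx⟩ := h
    have hw : ∀ g h, i (w.1 g h) = d1 ρB x g h := fun g h => congrFun (congrFun hwx g) h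
    have hz : (fun g => j (x g)) ∈ Z1 𝓛 ρC := by
      rw [mem_Z1_iff_d1]
      refine ⟨hx.comp j, ?_⟩
      ext g h
      rw [← S.j_d1, ← hw, S.comp_eq_zero]; rfl
    exact ⟨H1.mk 𝓛 ρC ⟨_, hz⟩, delta1_eq S hB _ x hx (fun g => rfl) w hw⟩
  · rintro ⟨c, rfl⟩
    obtain ⟨z, rfl⟩ := H1.mk_surjective 𝓛 ρC c
    obtain ⟨x, w, hx, hxz, hw, h⟩ := exists_delta1_eq S hB z
    rw [h, H2c, H2map_mk, H2.mk_eq_zero_iff]
    exact ⟨x, hx, funext fun g => funext fun h => hw g h⟩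

/-- exactness at `H²(B)` -/
theorem H2c_j_eq_zero_iff (S : SES ρA ρB ρC i j) (hB : Smooth 𝓛 ρB) (b : H2 𝓛 ρB) :
    H2c 𝓛 S.hj b = 0 ↔ ∃ a, H2c 𝓛 S.hi a = b := by
  constructor
  · obtain ⟨v, rfl⟩ := H2.mk_surjective 𝓛 ρB b
    intro h
    rw [H2c, H2map_mk, H2.mk_eq_zero_iff] at h
    obtain ⟨y, hy, hvy⟩ := h
    have hv : ∀ g h, j (v.1 g h) = d1 ρC y g h := fun g h => congrFun (congrFun hvy g) h
    obtain ⟨x, hx, hxy⟩ := S.exists_lift1 hy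
    have hmem : v.1 - d1 ρB x ∈ Z2 𝓛 ρB := (Z2 𝓛 ρB).sub_mem v.2 (d1_mem_Z2 hB hx)
    obtain ⟨w, hw, hw'⟩ := S.exists_pre2 hmem.1 (fun g h => by
      have : (fun k => j (x k)) = y := funext hxy
      rw [Pi.sub_apply, Pi.sub_apply, map_sub, hv, S.j_d1, this, sub_self])
    have hwZ : w ∈ Z2 𝓛 ρA := S.mem_Z2_of hw fun g h k => by
      simp only [hw']
      exact hmem.2 g h k
    refine ⟨H2.mk 𝓛 ρA ⟨w, hwZ⟩, ?_⟩
    rw [H2c, H2map_mk, ← sub_eq_zero, ← map_sub, H2.mk_eq_zero_iff]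
    refine ⟨-x, hx.comp (- ·), ?_⟩
    ext g h
    simp only [AddSubgroup.coe_sub, coe_Z2map, Pi.sub_apply, pp2_apply, MonoidHom.id_apply, hw',
      map_neg, Pi.neg_apply]
    abel
  · rintro ⟨a, rfl⟩
    obtain ⟨w, rfl⟩ := H2.mk_surjective 𝓛 ρA a
    rw [H2c, H2c, H2map_mk, H2map_mk, H2.mk_eq_zero_iff]
    refine ⟨0, LC1.const 0, ?_⟩
    ext g h
    simp [S.comp_eq_zero]

end SESsec

/-! ### naturality -/

section Naturality

variable {G H : Type*} [Group G] [Group H] {𝓛G : Lvl G} {𝓛H : Lvl H}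
variable {A B C A' B' C' : Type*} [AddCommGroup A] [AddCommGroup B] [AddCommGroup C]
  [AddCommGroup A'] [AddCommGroup B'] [AddCommGroup C']
variable {ρA : G →* AddMonoid.End A} {ρB : G →* AddMonoid.End B} {ρC : G →* AddMonoid.End C}
  {i : A →+ B} {j : B →+ C}
variable {ρA' : H →* AddMonoid.End A'} {ρB' : H →* AddMonoid.End B'} {ρC' : H →* AddMonoid.End C'}
  {i' : A' →+ B'} {j' : B' →+ C'}
variable {r : H →* G} {φA : A →+ A'} {φB : B →+ B'} {φC : C →+ C'}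

theorem delta0_natural (S : SES ρA ρB ρC i j) (hB : Smooth 𝓛G ρB) (S' : SES ρA' ρB' ρC' i' j')
    (hB' : Smooth 𝓛H ρB') (hr : LvlMap 𝓛G 𝓛H r) (hA : IsHomAlong ρA ρA' r φA)
    (hBB : IsHomAlong ρB ρB' r φB) (hC : IsHomAlong ρC ρC' r φC)
    (hi : ∀ a, i' (φA a) = φB (i a)) (hj : ∀ b, j' (φB b) = φC (j b)) (c : ↥(H0 ρC)) :
    H1map hr hA (delta0 S hB c) = delta0 S' hB' (H0map hC c) := by
  obtain ⟨b, z, hb, hz, h⟩ := exists_delta0_eq (𝓛 := 𝓛G) S hB c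
  rw [h, H1map_mk]
  refine (delta0_eq S' hB' _ (φB b) (by rw [hj, hb]; rfl) _ (fun g => ?_)).symm
  rw [coe_Z1map, pp1_apply, hi, hz, map_sub, hBB]

theorem delta1_natural (S : SES ρA ρB ρC i j) (hB : Smooth 𝓛G ρB) (S' : SES ρA' ρB' ρC' i' j')
    (hB' : Smooth 𝓛H ρB') (hr : LvlMap 𝓛G 𝓛H r) (hA : IsHomAlong ρA ρA' r φA)
    (hBB : IsHomAlong ρB ρB' r φB) (hC : IsHomAlong ρC ρC' r φC)
    (hi : ∀ a, i' (φA a) = φB (i a)) (hj : ∀ b, j' (φB b) = φC (j b)) (c : H1 𝓛G ρC) :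
    H2map hr hA (delta1 S hB c) = delta1 S' hB' (H1map hr hC c) := by
  obtain ⟨z, rfl⟩ := H1.mk_surjective 𝓛G ρC c
  obtain ⟨x, w, hx, hxz, hw, h⟩ := exists_delta1_eq S hB z
  rw [h, H2map_mk, H1map_mk]
  refine (delta1_eq S' hB' _ (pp1 r φB x) (hx.pp hr φB) (fun g => ?_) _ (fun g h => ?_)).symm
  · rw [pp1_apply, hj, hxz]; rfl
  · rw [coe_Z2map, pp2_apply, hi, hw, ← pp2_d1 hBB]; rfl

end Naturality

end Fermat.Agent.S55
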