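import Mathlib

/-!
# S55 : cohomology formalism (H⁰, H¹, H² with explicit level-constant cochains)

* `Lvl G` : a family of "open" subgroups of `G` (directed, finite index, containing normal members).
* coefficients: an additive commutative group `A` with an EXPLICIT action `ρ : G →* AddMonoid.End A`
  (no type classes for actions: the same `A` carries actions of several groups).
* conventions = Mathlib's `groupCohomology` low degree conventions: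
  `d⁰ a g = ρ g a - a`, `d¹ x (g,h) = ρ g (x h) - x (g*h) + x g`,
  1-cocycles `f (g*h) = ρ g (f h) + f g`, 2-cocycles `f (g*h) j + f g h = ρ g (f h j) + f g (h*j)`.
  2-cochains are CURRIED: `G → G → A`.
-/

set_option autoImplicit false

namespace Fermat.Agent.S55

/-- a level structure on a group: a directed family of finite index subgroups, cofinally normal -/
structure Lvl (G : Type*) [Group G] where
  sets : Set (Subgroup G)
  nonempty : sets.Nonempty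
  inter : ∀ U ∈ sets, ∀ V ∈ sets, ∃ W ∈ sets, W ≤ U ⊓ V
  normal : ∀ U ∈ sets, ∃ W ∈ sets, W ≤ U ∧ W.Normal
  fin : ∀ U ∈ sets, U.FiniteIndex

section General

variable {G : Type*} [Group G] (𝓛 : Lvl G)

/-- a subgroup is open if it contains a member of the family -/
def Lvl.IsOpen (U : Subgroup G) : Prop := ∃ V ∈ 𝓛.sets, V ≤ U

/-- level-constant functions of one variable -/
def LC1 {X : Type*} (f : G → X) : Prop := ∃ U ∈ 𝓛.sets, ∀ g, ∀ u ∈ U, f (g * u) = f g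

/-- level-constant functions of two variables -/
def LC2 {X : Type*} (f : G → G → X) : Prop :=
  ∃ U ∈ 𝓛.sets, ∀ g h, ∀ u ∈ U, ∀ u' ∈ U, f (g * u) (h * u') = f g h

variable {𝓛}

theorem LC1.comp {X Y : Type*} {f : G → X} (hf : LC1 𝓛 f) (φ : X → Y) : LC1 𝓛 (fun g => φ (f g)) := by
  obtain ⟨U, hU, h⟩ := hf
  exact ⟨U, hU, fun g u hu => by simp only [h g u hu]⟩

theorem LC2.comp {X Y : Type*} {f : G → G → X} (hf : LC2 𝓛 f) (φ : X → Y) :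
    LC2 𝓛 (fun g h => φ (f g h)) := by
  obtain ⟨U, hU, h⟩ := hf
  exact ⟨U, hU, fun g h' u hu u' hu' => by simp only [h g h' u hu u' hu']⟩

theorem LC1.comp₂ {X Y Z : Type*} {f : G → X} {f' : G → Y} (hf : LC1 𝓛 f) (hf' : LC1 𝓛 f')
    (φ : X → Y → Z) : LC1 𝓛 (fun g => φ (f g) (f' g)) := by
  obtain ⟨U, hU, h⟩ := hf
  obtain ⟨U', hU', h'⟩ := hf'
  obtain ⟨W, hW, hWU⟩ := 𝓛.inter U hU U' hU'
  exact ⟨W, hW, fun g u hu => by simp only [h g u (hWU hu).1, h' g u (hWU hu).2]⟩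

theorem LC2.comp₂ {X Y Z : Type*} {f : G → G → X} {f' : G → G → Y} (hf : LC2 𝓛 f) (hf' : LC2 𝓛 f')
    (φ : X → Y → Z) : LC2 𝓛 (fun g h => φ (f g h) (f' g h)) := by
  obtain ⟨U, hU, h⟩ := hf
  obtain ⟨U', hU', h'⟩ := hf'
  obtain ⟨W, hW, hWU⟩ := 𝓛.inter U hU U' hU'
  exact ⟨W, hW, fun g k u hu u' hu' => by
    simp only [h g k u (hWU hu).1 u' (hWU hu').1, h' g k u (hWU hu).2 u' (hWU hu').2]⟩

theorem LC1.const {X : Type*} (x : X) : LC1 𝓛 (fun _ : G => x) := by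
  obtain ⟨U, hU⟩ := 𝓛.nonempty
  exact ⟨U, hU, fun _ _ _ => rfl⟩

theorem LC2.const {X : Type*} (x : X) : LC2 𝓛 (fun _ _ : G => x) := by
  obtain ⟨U, hU⟩ := 𝓛.nonempty
  exact ⟨U, hU, fun _ _ _ _ _ _ => rfl⟩

variable (𝓛)
variable {A : Type*} [AddCommGroup A] (ρ : G →* AddMonoid.End A)

/-- smooth (= discrete) action -/
def Smooth : Prop := ∀ a : A, ∃ U ∈ 𝓛.sets, ∀ u ∈ U, ρ u a = a

/-- invariants -/
def H0 : AddSubgroup A where
  carrier := {a | ∀ g, ρ g a = a}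
  add_mem' := fun ha hb g => by rw [map_add, ha g, hb g]
  zero_mem' := fun g => map_zero _
  neg_mem' := fun ha g => by rw [map_neg, ha g]

theorem mem_H0 {a : A} : a ∈ H0 ρ ↔ ∀ g, ρ g a = a := Iff.rfl

/-- `d⁰` -/
def d0 : A →+ (G → A) where
  toFun a g := ρ g a - a
  map_zero' := by ext g; simp
  map_add' a b := by ext g; simp only [map_add, Pi.add_apply]; abel

/-- `d¹` -/
def d1 : (G → A) →+ (G → G → A) where
  toFun x g h := ρ g (x h) - x (g * h) + x g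
  map_zero' := by ext g h; simp
  map_add' a b := by ext g h; simp only [map_add, Pi.add_apply]; abel

@[simp] theorem d0_apply (a : A) (g : G) : d0 ρ a g = ρ g a - a := rfl
@[simp] theorem d1_apply (x : G → A) (g h : G) : d1 ρ x g h = ρ g (x h) - x (g * h) + x g := rfl

/-- level-constant 1-cocycles -/
def Z1 : AddSubgroup (G → A) where
  carrier := {f | LC1 𝓛 f ∧ ∀ g h, f (g * h) = ρ g (f h) + f g}
  add_mem' := by
    rintro a b ⟨ha, ha'⟩ ⟨hb, hb'⟩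
    refine ⟨ha.comp₂ hb (· + ·), fun g h => ?_⟩
    simp only [Pi.add_apply, ha' g h, hb' g h, map_add]; abel
  zero_mem' := ⟨LC1.const 0, fun g h => by simp⟩
  neg_mem' := by
    rintro a ⟨ha, ha'⟩
    refine ⟨ha.comp (- ·), fun g h => ?_⟩
    simp only [Pi.neg_apply, ha' g h, map_neg]; abel

/-- level-constant 1-coboundaries -/
def B1 : AddSubgroup (G → A) where
  carrier := {f | LC1 𝓛 f ∧ ∃ a, f = d0 ρ a}
  add_mem' := by
    rintro a b ⟨ha, x, rfl⟩ ⟨hb, y, rfl⟩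
    exact ⟨ha.comp₂ hb (· + ·), x + y, (map_add _ _ _).symm⟩
  zero_mem' := ⟨LC1.const 0, 0, (map_zero _).symm⟩
  neg_mem' := by
    rintro a ⟨ha, x, rfl⟩
    exact ⟨ha.comp (- ·), -x, (map_neg _ _).symm⟩

/-- level-constant 2-cocycles -/
def Z2 : AddSubgroup (G → G → A) where
  carrier := {f | LC2 𝓛 f ∧ ∀ g h j, f (g * h) j + f g h = ρ g (f h j) + f g (h * j)}
  add_mem' := by
    rintro a b ⟨ha, ha'⟩ ⟨hb, hb'⟩
    refine ⟨ha.comp₂ hb (· + ·), fun g h j => ?_⟩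
    have h1 := ha' g h j
    have h2 := hb' g h j
    simp only [Pi.add_apply, map_add]
    calc a (g * h) j + b (g * h) j + (a g h + b g h)
        = (a (g * h) j + a g h) + (b (g * h) j + b g h) := by abel
      _ = _ := by rw [h1, h2]; abel
  zero_mem' := ⟨LC2.const 0, fun g h j => by simp⟩
  neg_mem' := by
    rintro a ⟨ha, ha'⟩
    refine ⟨ha.comp (- ·), fun g h j => ?_⟩
    have h1 := ha' g h j
    simp only [Pi.neg_apply, map_neg]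
    calc -a (g * h) j + -a g h = -(a (g * h) j + a g h) := by abel
      _ = _ := by rw [h1]; abel

/-- coboundaries of level-constant 1-cochains -/
def B2 : AddSubgroup (G → G → A) where
  carrier := {f | ∃ x : G → A, LC1 𝓛 x ∧ f = d1 ρ x}
  add_mem' := by
    rintro a b ⟨x, hx, rfl⟩ ⟨y, hy, rfl⟩
    exact ⟨x + y, hx.comp₂ hy (· + ·), (map_add _ _ _).symm⟩
  zero_mem' := ⟨0, LC1.const 0, (map_zero _).symm⟩
  neg_mem' := by
    rintro a ⟨x, hx, rfl⟩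
    exact ⟨-x, hx.comp (- ·), (map_neg _ _).symm⟩

theorem mem_Z1 {f : G → A} : f ∈ Z1 𝓛 ρ ↔ LC1 𝓛 f ∧ ∀ g h, f (g * h) = ρ g (f h) + f g := Iff.rfl
theorem mem_B1 {f : G → A} : f ∈ B1 𝓛 ρ ↔ LC1 𝓛 f ∧ ∃ a, f = d0 ρ a := Iff.rfl
theorem mem_Z2 {f : G → G → A} : f ∈ Z2 𝓛 ρ ↔
    LC2 𝓛 f ∧ ∀ g h j, f (g * h) j + f g h = ρ g (f h j) + f g (h * j) := Iff.rfl
theorem mem_B2 {f : G → G → A} : f ∈ B2 𝓛 ρ ↔ ∃ x : G → A, LC1 𝓛 x ∧ f = d1 ρ x := Iff.rfl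

/-- `H¹` -/
abbrev H1 : Type _ := ↥(Z1 𝓛 ρ) ⧸ (B1 𝓛 ρ).addSubgroupOf (Z1 𝓛 ρ)

/-- `H²` -/
abbrev H2 : Type _ := ↥(Z2 𝓛 ρ) ⧸ (B2 𝓛 ρ).addSubgroupOf (Z2 𝓛 ρ)

/-- the class of a 1-cocycle -/
def H1.mk : ↥(Z1 𝓛 ρ) →+ H1 𝓛 ρ := QuotientAddGroup.mk' _

/-- the class of a 2-cocycle -/
def H2.mk : ↥(Z2 𝓛 ρ) →+ H2 𝓛 ρ := QuotientAddGroup.mk' _

theorem H1.mk_surjective : Function.Surjective (H1.mk 𝓛 ρ) := QuotientAddGroup.mk'_surjective _
theorem H2.mk_surjective : Function.Surjective (H2.mk 𝓛 ρ) := QuotientAddGroup.mk'_surjective _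

theorem H1.mk_eq_zero_iff (f : ↥(Z1 𝓛 ρ)) : H1.mk 𝓛 ρ f = 0 ↔ (f : G → A) ∈ B1 𝓛 ρ := by
  rw [H1.mk, QuotientAddGroup.mk'_apply, QuotientAddGroup.eq_zero_iff, AddSubgroup.mem_addSubgroupOf]

theorem H2.mk_eq_zero_iff (f : ↥(Z2 𝓛 ρ)) : H2.mk 𝓛 ρ f = 0 ↔ (f : G → G → A) ∈ B2 𝓛 ρ := by
  rw [H2.mk, QuotientAddGroup.mk'_apply, QuotientAddGroup.eq_zero_iff, AddSubgroup.mem_addSubgroupOf]

end General

/-! ### functoriality -/

section Functoriality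

variable {G H : Type*} [Group G] [Group H] (𝓛G : Lvl G) (𝓛H : Lvl H)

/-- `r : H → G` is continuous -/
def LvlMap (r : H →* G) : Prop := ∀ U ∈ 𝓛G.sets, ∃ V ∈ 𝓛H.sets, V ≤ U.comap r

variable {A B : Type*} [AddCommGroup A] [AddCommGroup B]
  (ρA : G →* AddMonoid.End A) (ρB : H →* AddMonoid.End B)

/-- compatibility of `φ : A → B` with the actions along `r : H → G` -/
def IsHomAlong (r : H →* G) (φ : A →+ B) : Prop := ∀ h a, φ (ρA (r h) a) = ρB h (φ a)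

/-- pull-push of 1-cochains -/
def pp1 (r : H →* G) (φ : A →+ B) : (G → A) →+ (H → B) where
  toFun f h := φ (f (r h))
  map_zero' := by ext; simp
  map_add' a b := by ext; simp

/-- pull-push of 2-cochains -/
def pp2 (r : H →* G) (φ : A →+ B) : (G → G → A) →+ (H → H → B) where
  toFun f h h' := φ (f (r h) (r h'))
  map_zero' := by ext; simp
  map_add' a b := by ext; simp

@[simp] theorem pp1_apply (r : H →* G) (φ : A →+ B) (f : G → A) (h : H) :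
    pp1 r φ f h = φ (f (r h)) := rfl
@[simp] theorem pp2_apply (r : H →* G) (φ : A →+ B) (f : G → G → A) (h h' : H) :
    pp2 r φ f h h' = φ (f (r h) (r h')) := rfl

variable {𝓛G 𝓛H ρA ρB} {r : H →* G} {φ : A →+ B}

theorem LC1.pp {X Y : Type*} (hr : LvlMap 𝓛G 𝓛H r) {f : G → X} (hf : LC1 𝓛G f) (φ : X → Y) :
    LC1 𝓛H (fun h => φ (f (r h))) := by
  obtain ⟨U, hU, h⟩ := hf
  obtain ⟨V, hV, hVU⟩ := hr U hU
  exact ⟨V, hV, fun g u hu => by simp only [map_mul, h (r g) (r u) (hVU hu)]⟩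

theorem LC2.pp {X Y : Type*} (hr : LvlMap 𝓛G 𝓛H r) {f : G → G → X} (hf : LC2 𝓛G f) (φ : X → Y) :
    LC2 𝓛H (fun h h' => φ (f (r h) (r h'))) := by
  obtain ⟨U, hU, h⟩ := hf
  obtain ⟨V, hV, hVU⟩ := hr U hU
  exact ⟨V, hV, fun g g' u hu u' hu' => by
    simp only [map_mul, h (r g) (r g') (r u) (hVU hu) (r u') (hVU hu')]⟩

theorem pp1_d0 (hφ : IsHomAlong ρA ρB r φ) (a : A) : pp1 r φ (d0 ρA a) = d0 ρB (φ a) := by
  ext h; simp [hφ h a]

theorem pp2_d1 (hφ : IsHomAlong ρA ρB r φ) (x : G → A) :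
    pp2 r φ (d1 ρA x) = d1 ρB (pp1 r φ x) := by
  ext h h'; simp [hφ h]

theorem pp1_mem_Z1 (hr : LvlMap 𝓛G 𝓛H r) (hφ : IsHomAlong ρA ρB r φ) {f : G → A}
    (hf : f ∈ Z1 𝓛G ρA) : pp1 r φ f ∈ Z1 𝓛H ρB :=
  ⟨hf.1.pp hr φ, fun g h => by simp [hf.2, hφ g]⟩

theorem pp1_mem_B1 (hr : LvlMap 𝓛G 𝓛H r) (hφ : IsHomAlong ρA ρB r φ) {f : G → A}
    (hf : f ∈ B1 𝓛G ρA) : pp1 r φ f ∈ B1 𝓛H ρB := by
  obtain ⟨h1, a, rfl⟩ := hf
  exact ⟨h1.pp hr φ, φ a, pp1_d0 hφ a⟩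

theorem pp2_mem_Z2 (hr : LvlMap 𝓛G 𝓛H r) (hφ : IsHomAlong ρA ρB r φ) {f : G → G → A}
    (hf : f ∈ Z2 𝓛G ρA) : pp2 r φ f ∈ Z2 𝓛H ρB :=
  ⟨hf.1.pp hr φ, fun g h j => by
    simp only [pp2_apply, map_mul, ← map_add, hf.2, ← hφ g]⟩

theorem pp2_mem_B2 (hr : LvlMap 𝓛G 𝓛H r) (hφ : IsHomAlong ρA ρB r φ) {f : G → G → A}
    (hf : f ∈ B2 𝓛G ρA) : pp2 r φ f ∈ B2 𝓛H ρB := by
  obtain ⟨x, hx, rfl⟩ := hf
  exact ⟨pp1 r φ x, hx.pp hr φ, pp2_d1 hφ x⟩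

/-- the map on `H⁰` -/
def H0map (hφ : IsHomAlong ρA ρB r φ) : ↥(H0 ρA) →+ ↥(H0 ρB) :=
  (φ.comp (H0 ρA).subtype).codRestrict (H0 ρB) (fun a h => by
    have := hφ h a.1
    rw [a.2 (r h)] at this
    exact this.symm)

/-- the map on 1-cocycles -/
def Z1map (hr : LvlMap 𝓛G 𝓛H r) (hφ : IsHomAlong ρA ρB r φ) : ↥(Z1 𝓛G ρA) →+ ↥(Z1 𝓛H ρB) :=
  ((pp1 r φ).comp (Z1 𝓛G ρA).subtype).codRestrict (Z1 𝓛H ρB) (fun f => pp1_mem_Z1 hr hφ f.2)

/-- the map on 2-cocycles -/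
def Z2map (hr : LvlMap 𝓛G 𝓛H r) (hφ : IsHomAlong ρA ρB r φ) : ↥(Z2 𝓛G ρA) →+ ↥(Z2 𝓛H ρB) :=
  ((pp2 r φ).comp (Z2 𝓛G ρA).subtype).codRestrict (Z2 𝓛H ρB) (fun f => pp2_mem_Z2 hr hφ f.2)

/-- the map on `H¹` -/
def H1map (hr : LvlMap 𝓛G 𝓛H r) (hφ : IsHomAlong ρA ρB r φ) : H1 𝓛G ρA →+ H1 𝓛H ρB :=
  QuotientAddGroup.map _ _ (Z1map hr hφ) (fun f hf => by
    rw [AddSubgroup.mem_comap, AddSubgroup.mem_addSubgroupOf]
    exact pp1_mem_B1 hr hφ (AddSubgroup.mem_addSubgroupOf.1 hf))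

/-- the map on `H²` -/
def H2map (hr : LvlMap 𝓛G 𝓛H r) (hφ : IsHomAlong ρA ρB r φ) : H2 𝓛G ρA →+ H2 𝓛H ρB :=
  QuotientAddGroup.map _ _ (Z2map hr hφ) (fun f hf => by
    rw [AddSubgroup.mem_comap, AddSubgroup.mem_addSubgroupOf]
    exact pp2_mem_B2 hr hφ (AddSubgroup.mem_addSubgroupOf.1 hf))

@[simp] theorem H1map_mk (hr : LvlMap 𝓛G 𝓛H r) (hφ : IsHomAlong ρA ρB r φ) (f : ↥(Z1 𝓛G ρA)) :
    H1map hr hφ (H1.mk 𝓛G ρA f) = H1.mk 𝓛H ρB (Z1map hr hφ f) := rfl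

@[simp] theorem H2map_mk (hr : LvlMap 𝓛G 𝓛H r) (hφ : IsHomAlong ρA ρB r φ) (f : ↥(Z2 𝓛G ρA)) :
    H2map hr hφ (H2.mk 𝓛G ρA f) = H2.mk 𝓛H ρB (Z2map hr hφ f) := rfl

@[simp] theorem coe_Z1map (hr : LvlMap 𝓛G 𝓛H r) (hφ : IsHomAlong ρA ρB r φ) (f : ↥(Z1 𝓛G ρA)) :
    (Z1map hr hφ f : H → B) = pp1 r φ f := rfl

@[simp] theorem coe_Z2map (hr : LvlMap 𝓛G 𝓛H r) (hφ : IsHomAlong ρA ρB r φ) (f : ↥(Z2 𝓛G ρA)) :
    (Z2map hr hφ f : H → H → B) = pp2 r φ f := rfl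

@[simp] theorem coe_H0map (hφ : IsHomAlong ρA ρB r φ) (a : ↥(H0 ρA)) :
    (H0map hφ a : B) = φ a := rfl

end Functoriality

/-! ### same group: equivariant maps;  subgroups / pull back of levels -/

section Same

variable {G : Type*} [Group G] (𝓛 : Lvl G)
variable {A B : Type*} [AddCommGroup A] [AddCommGroup B]
  (ρA : G →* AddMonoid.End A) (ρB : G →* AddMonoid.End B)

/-- `G`-equivariant additive maps -/
def IsHom (φ : A →+ B) : Prop := ∀ g a, φ (ρA g a) = ρB g (φ a)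

theorem LvlMap.id : LvlMap 𝓛 𝓛 (MonoidHom.id G) := fun U hU => ⟨U, hU, fun _ h => h⟩

variable {𝓛 ρA ρB}

theorem IsHom.along {φ : A →+ B} (h : IsHom ρA ρB φ) : IsHomAlong ρA ρB (MonoidHom.id G) φ := h

variable (𝓛)

/-- coefficient maps -/
def H0c {φ : A →+ B} (h : IsHom ρA ρB φ) : ↥(H0 ρA) →+ ↥(H0 ρB) := H0map h.along
def H1c {φ : A →+ B} (h : IsHom ρA ρB φ) : H1 𝓛 ρA →+ H1 𝓛 ρB := H1map (LvlMap.id 𝓛) h.along
def H2c {φ : A →+ B} (h : IsHom ρA ρB φ) : H2 𝓛 ρA →+ H2 𝓛 ρB := H2map (LvlMap.id 𝓛) h.along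

variable {H : Type*} [Group H]

/-- pull back of a level structure along an arbitrary homomorphism -/
def Lvl.comap (r : H →* G) : Lvl H where
  sets := (fun U => U.comap r) '' 𝓛.sets
  nonempty := 𝓛.nonempty.image _
  inter := by
    rintro _ ⟨U, hU, rfl⟩ _ ⟨V, hV, rfl⟩
    obtain ⟨W, hW, hWU⟩ := 𝓛.inter U hU V hV
    exact ⟨_, ⟨W, hW, rfl⟩, fun x hx => ⟨(hWU hx).1, (hWU hx).2⟩⟩
  normal := by
    rintro _ ⟨U, hU, rfl⟩
    obtain ⟨W, hW, hWU, hn⟩ := 𝓛.normal U hU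
    exact ⟨_, ⟨W, hW, rfl⟩, fun x hx => hWU hx, hn.comap r⟩
  fin := by
    rintro _ ⟨U, hU, rfl⟩
    have := 𝓛.fin U hU
    refine ⟨?_⟩
    change (U.comap r).index ≠ 0
    rw [Subgroup.index_comap]
    exact (inferInstance : (U.subgroupOf r.range).FiniteIndex).index_ne_zero

theorem LvlMap.comap (r : H →* G) : LvlMap 𝓛 (𝓛.comap r) r :=
  fun U hU => ⟨_, ⟨U, hU, rfl⟩, le_rfl⟩

theorem isHomAlong_res (ρ : G →* AddMonoid.End A) (r : H →* G) :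
    IsHomAlong ρ (ρ.comp r) r (AddMonoidHom.id A) := fun _ _ => rfl

/-- restriction along `r : H → G` (levels pulled back, coefficients restricted) -/
def res0 (ρ : G →* AddMonoid.End A) (r : H →* G) : ↥(H0 ρ) →+ ↥(H0 (ρ.comp r)) :=
  H0map (isHomAlong_res ρ r)
def res1 (ρ : G →* AddMonoid.End A) (r : H →* G) : H1 𝓛 ρ →+ H1 (𝓛.comap r) (ρ.comp r) :=
  H1map (LvlMap.comap 𝓛 r) (isHomAlong_res ρ r)
def res2 (ρ : G →* AddMonoid.End A) (r : H →* G) : H2 𝓛 ρ →+ H2 (𝓛.comap r) (ρ.comp r) :=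
  H2map (LvlMap.comap 𝓛 r) (isHomAlong_res ρ r)

end Same

/-! ### finite `G`-sets and the modules `Fn π ρ = Map(Σ, A)` -/

section FnSec

variable {G : Type*} [Group G] {Sg Sg' : Type*} (π : G →* Equiv.Perm Sg) (π' : G →* Equiv.Perm Sg')
variable {A : Type*} [AddCommGroup A] (ρ : G →* AddMonoid.End A)

/-- smooth `G`-set -/
def SmoothSet (𝓛 : Lvl G) : Prop := ∃ U ∈ 𝓛.sets, ∀ u ∈ U, π u = 1

/-- `Map(Σ, A)` with `(g f)(s) = g (f (g⁻¹ s))` -/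
def Fn : G →* AddMonoid.End (Sg → A) where
  toFun g :=
    { toFun := fun f s => ρ g (f ((π g)⁻¹ s))
      map_zero' := by ext; simp
      map_add' := fun a b => by ext; simp }
  map_one' := by
    ext f s
    change ρ 1 (f ((π 1)⁻¹ s)) = f s
    simp
  map_mul' g h := by
    ext f s
    change ρ (g * h) (f ((π (g * h))⁻¹ s)) = ρ g (ρ h (f ((π h)⁻¹ ((π g)⁻¹ s))))
    simp [mul_inv_rev]

@[simp] theorem Fn_apply (g : G) (f : Sg → A) (s : Sg) : Fn π ρ g f s = ρ g (f ((π g)⁻¹ s)) := rfl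

/-- maps of `G`-sets -/
def IsSetMap (u : Sg' → Sg) : Prop := ∀ g s, u (π' g s) = π g (u s)

/-- pull back of functions along `u : Σ' → Σ` -/
def pull (A : Type*) [AddCommGroup A] (u : Sg' → Sg) : (Sg → A) →+ (Sg' → A) where
  toFun f s := f (u s)
  map_zero' := rfl
  map_add' _ _ := rfl

open Classical in
/-- sum over the fibres of `u : Σ' → Σ` -/
noncomputable def push (A : Type*) [AddCommGroup A] [Fintype Sg'] (u : Sg' → Sg) :
    (Sg' → A) →+ (Sg → A) where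
  toFun f s := ∑ s' with u s' = s, f s'
  map_zero' := by ext; simp
  map_add' a b := by ext; simp [Finset.sum_add_distrib]

/-- constant functions -/
def eta (Sg A : Type*) [AddCommGroup A] : A →+ (Sg → A) where
  toFun a _ := a
  map_zero' := rfl
  map_add' _ _ := rfl

/-- total sum -/
def eps (Sg A : Type*) [AddCommGroup A] [Fintype Sg] : (Sg → A) →+ A where
  toFun f := ∑ s, f s
  map_zero' := by simp
  map_add' a b := by simp [Finset.sum_add_distrib]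

/-- post-composition with a coefficient map -/
def post (Sg : Type*) {A B : Type*} [AddCommGroup A] [AddCommGroup B] (φ : A →+ B) :
    (Sg → A) →+ (Sg → B) where
  toFun f s := φ (f s)
  map_zero' := by ext; simp
  map_add' a b := by ext; simp

end FnSec

end Fermat.Agent.S55
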