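import Fermat.Agent.S55.Coh.Defs

/-!
# S55 : equivariance of the basic maps between the modules `Fn π ρ`
-/

set_option autoImplicit false

namespace Fermat.Agent.S55

variable {G : Type*} [Group G] {Sg Sg' : Type*} (π : G →* Equiv.Perm Sg) (π' : G →* Equiv.Perm Sg')
variable {A B : Type*} [AddCommGroup A] [AddCommGroup B]
  (ρ : G →* AddMonoid.End A) (ρB : G →* AddMonoid.End B)

@[simp] theorem pull_apply (u : Sg' → Sg) (f : Sg → A) (s : Sg') : pull A u f s = f (u s) := rfl
@[simp] theorem eta_apply (a : A) (s : Sg) : eta Sg A a s = a := rfl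
@[simp] theorem eps_apply [Fintype Sg] (f : Sg → A) : eps Sg A f = ∑ s, f s := rfl
@[simp] theorem post_apply (φ : A →+ B) (f : Sg → A) (s : Sg) : post Sg φ f s = φ (f s) := rfl

open Classical in
theorem push_apply [Fintype Sg'] (u : Sg' → Sg) (f : Sg' → A) (s : Sg) :
    push A u f s = ∑ s' with u s' = s, f s' := rfl

theorem isHom_eta : IsHom ρ (Fn π ρ) (eta Sg A) := fun _ _ => rfl

theorem isHom_eps [Fintype Sg] : IsHom (Fn π ρ) ρ (eps Sg A) := by
  intro g f
  simp only [eps_apply, Fn_apply, map_sum]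
  exact Fintype.sum_equiv (π g)⁻¹ _ _ (fun s => rfl)

theorem isHom_post {φ : A →+ B} (h : IsHom ρ ρB φ) : IsHom (Fn π ρ) (Fn π ρB) (post Sg φ) := by
  intro g f
  ext s
  simp [h g]

variable {π π'}

theorem IsSetMap.inv {u : Sg' → Sg} (hu : IsSetMap π π' u) (g : G) (s : Sg') :
    u ((π' g)⁻¹ s) = (π g)⁻¹ (u s) := by
  have h := hu g ((π' g)⁻¹ s)
  have h1 : (π' g) ((π' g)⁻¹ s) = s := by simp
  rw [h1] at h
  rw [h]; simp

theorem isHom_pull {u : Sg' → Sg} (hu : IsSetMap π π' u) :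
    IsHom (Fn π ρ) (Fn π' ρ) (pull A u) := by
  intro g f
  ext s
  simp only [pull_apply, Fn_apply, hu.inv g s]

theorem isHom_push [Fintype Sg'] {u : Sg' → Sg} (hu : IsSetMap π π' u) :
    IsHom (Fn π' ρ) (Fn π ρ) (push A u) := by
  classical
  intro g f
  ext s
  simp only [push_apply, Fn_apply, map_sum]
  refine Finset.sum_equiv (π' g)⁻¹ (fun s' => ?_) (fun s' _ => rfl)
  simp only [Finset.mem_filter, Finset.mem_univ, true_and]
  rw [hu.inv g s']
  constructor
  · rintro rfl; rfl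
  · intro h
    have := congrArg (π g) h
    simpa using this

/-- equivariance is preserved by restriction of the group -/
theorem IsHom.res {H : Type*} [Group H] {ρ : G →* AddMonoid.End A} {ρB : G →* AddMonoid.End B}
    {φ : A →+ B} (h : IsHom ρ ρB φ) (r : H →* G) : IsHom (ρ.comp r) (ρB.comp r) φ :=
  fun g a => h (r g) a

/-- transitive `G`-sets -/
def IsTrans (π : G →* Equiv.Perm Sg) : Prop := Nonempty Sg ∧ ∀ s s' : Sg, ∃ g, π g s = s'

/-- the `G`-set `G ⧸ U` -/
def cosetPerm (U : Subgroup G) : G →* Equiv.Perm (G ⧸ U) := MulAction.toPermHom G (G ⧸ U)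

end Fermat.Agent.S55
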